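import Mathlib
import Fermat.Agent.LT.T7.H514.FactUpQSpec

/-!
# Row LT, tower T7, node Q2.7.13.1 `FUQ514.UpFactQC514` (registry row 2708, owner helper1):
# THE CUT (global → local upstairs over `ℚ`) -- Spec

OFF-MAIN.  Definitions and frozen Props only (the proved top is `UpFactQTop.lean`).  No hole,
nothing assumed.  ADDITIVE (new names only, namespace `Fermat.Agent.LT.T7.H1U`).  Vocabulary:
`T7/H514/FactUpQSpec.lean` (helper514@c4d7f196f, sha256 01844c0a) and its imports, byte-identical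
copies.  Model: the cut of `H305.FactDownC305` by helper558 (Part A cut-on / Part B integral).

    upFactQW_of   : UpDatExistsQC F → CutOnUpQC F → FactIntUpQC F → UpFactQWC F
    upFactQC_of   : UpDatExistsQC F → CutOnUpQC F → FactIntUpQC F → FUQ514.UpFactQC514 F  (VERBATIM)

## The data

`UpDatQ F`: for every place `v` of `ℚ` ONE place `w0 v` of `F` and a function `bet v` on
`GL₂(F_{w0 v})` (the cut-off of the block over `v`), the infinite place `winf` of `F` and a
cut-off function `βc` on `GL₂(ℂ)`.  THE PRODUCT CUT-OFF UPSTAIRS: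

    prodCutUpQ S' S cT U y = c_T⁻¹ 1_{Out_{S'}}(y) ∏_{v ∈ S} bet_v(y_{w0 v}) · βc(y_winf).

`IsUpDatQ`: at every `v ∈ S` EITHER `w0 v` is the only place over `v`, `bet v` is a continuous
cut-off function for the normalised Haar measure of the twisted centraliser of `δ_w` and
`J v` is the local twisted integral (`IsInertAtQ` = `H340.IsInertVal340` with `w`, `β'` NAMED), OR
`v` splits, there is an enumeration `w 0 = w0 v, w 1` of the places over `v`
(`w j = σ(w (j+1))`) with `i j : ℚ_v ≃ F_{w j}`, the levels agree, `bet v = L.βv v ∘ (i 0)⁻¹` (the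
cut-off DOWNSTAIRS in the coordinate of `w 0`) and `J v` is the split integral (`IsSplitAtQ` =
`FUQ514.IsSplitValQ514` with the FIRST place NAMED: this is the form needed by the
one-enumeration local hypotheses, helper467 / helper893 v2); at infinity `βc` is normalised
against `L.μtr` and `Jc j` is the twisted integral on `GL₂(ℂ)` (`IsArchAtQ`).

## The cut

* **`UpDatExistsQC F`** (LEAF [L], local existence): for every choice `w0c` of places over the
  places of `S` there are data with `U.w0 = w0c`.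
* **`CutOnUpQC F`** (NODE [L], Part A): the product cut-off is a cut-off function for
  `T_𝔸(δ)`, `μT'` on the support of the integrand.
* **`FactIntUpQC F`** (NODE [XL], Part B): the cut-off integral is
  `(c'_G / c_T) ∑_j ∏_{v ∈ S} J_v · Jc_j`; `c'_G` depends on `D`, `μc`, `T₀`, `n`, `m` only.

Parts A and B use of the local hypotheses ONLY: `inv_up` (bi-invariance, finite support
upstairs) and the continuity / compact support of `Φ`.  So the node is proved in the form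
`UpFactQWC` (no `LocHypQ298`; the caller names the first places) AND in the form of helper514.

## Proofs (sketches) and FALSITY CHECKS (helper1)

`UpDatExistsQC`: `v ∈ S`.  If `w0c v` is the only place over `v`: `(e, i, s_w)` from
`T6.InstExtC` (`σ` generates the Galois group: order `2`, `σ ≠ 1`), `μ'` and `μt'` from
`H305.LocMeasC305` (`T6.InstLocalC`; `N δ_w = i(γ_v)` is regular), `β'` from `H305.LocCutC305`.
Otherwise there is `w₁ ≠ w0c v` over `v`; the Galois group is transitive on the places over `v`,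
so `w₁ = σ⁻¹(w0c v)`, `σ⁻¹(w₁) = w0c v`: `w (2k) = w0c v`, `w (2k+1) = w₁`; `e = f = 1`
(`∑ e f = 2`), `i j` from `T6.InstSplitC`; the levels by hypothesis; `bet v := L.βv v ∘ (i 0)⁻¹`.
Infinity: the image of the centraliser of `γ_∞` in `GL₂(ℂ)` is a closed commutative subgroup,
`exists_cutoff584` (helper584) for the image of `L.μtr`.

`CutOnUpQC`: measurable: `Out_{S'}` is open, the components are continuous (`H558.OutOpenC558 F`,
`H558.CompContC558 F`), `bet v ∘ (component)` is continuous in both cases.  `≥ 0`: clear.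
Normalisation: (1) on the support `x⁻¹ δ σ(x) ∈ Out_{S'}` (`r'` is trivial at the finite places);
(2) TWISTED SUPPORT: then `x = t x'`, `t ∈ T_𝔸(δ)`, `x' ∈ Out_{S'}` (local statement at `v ∉ S`,
unramified in `F`, `N δ = γ` good, `δ` integral: helper159 `GoodUnitTw.lean`,
`GoodUnitSplit.lean`); (3) `T_𝔸(δ)` is commutative (`H305.TorCommC305 F`), so `μT'` is right
invariant; (4) for `x' ∈ Out_{S'}`: `μT'` is the image of `μT` (`IsTorLinked305`),
`ι(t) x' ∈ Out_{S'} ⟺ t ∈ Out_S` (`|i x| = |x|^e`), `(ι t)_{w0 v} = i_v(t_v)`,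
`(ι t)_winf = (t_∞)_ℂ` (the real place: `conj` is trivial on `ℝ`), `IsTorConstQ298` (`c_T`
cancels), Fubini for a product of functions; local factors `= 1`: inert `v`: `i_v` maps the
centraliser of `γ_v` onto the twisted centraliser of `δ_w` (`T6.TwCentC`) and the normalised
measures correspond (`i⁻¹(T'^c) = T^c`); split `v`: `bet v (i_0(t) x) = L.βv v (t · i_0⁻¹ x)`,
`IsLocCut305` downstairs; infinity: the normalisation of `βc`.  The local maps of `ι`, of the
inert datum and of the split datum agree: ring homomorphisms `ℚ_v → F_w` which agree on `ℚ` and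
satisfy `|i x| = |x|^e` are equal (helper1 `T7/H1G/Fixed.lean`, `eq_of_val_of_rat_H1G`).

`FactIntUpQC`: `c'_G` = the constant of `H305.HaarSplitC305 F` (`F` is totally complex) for
`D.R'.μ`, `μc`, the places over `T₀` and the levels `n`.  Local Haar measures upstairs: the `μ'`
of the datum at the inert places of `S`, the images of `L.μv v` under `i j` at the split places
(normalised: `n (w j) = m v`), arbitrary normalised measures elsewhere.  For `y ∈ Out_{S'}`:
`σ(y) ∈ Out_{S'}` (`S'` is `σ`-stable, `H305.SigmaLocC305 F`), `y⁻¹ δ σ(y) r'^j ∈ Out_{S'}`, and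
the integrand is the product over `v ∈ S` of the block integrands and of the integrand at
infinity (`(σ y)_w = s_{w' → w}(y_{w'})`, `w = σ(w')`; at infinity `σ_𝔸` is the complex
conjugation: `σ ≠ 1` and `F` has ONE infinite place); block Fubini (helper159
`T7/H159/BlockFubini.lean`; no integrability needed for products); the block integral is
`locTwInt340` (one place; the `s_w` of the datum is the component of `σ_𝔸`: density) resp.
`splitInt340` in the coordinates `y_j = (i j)⁻¹(x_{w j})` (`s_{w_{j+1} → w_j} ∘ i_{j+1} = i_j`).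
The sum over the ray is finite, uniformly (`|det| = t'^{2j} |det δ_w|`), and the integrands at
infinity are integrable (twisted form of `H558.ArchIntblC558`).  CONVENTION: if a block
integrand is not integrable both sides vanish.
-/

set_option autoImplicit false

open AutomorphicForm IsDedekindDomain NumberField MeasureTheory
open scoped ComplexConjugate

noncomputable section

namespace Fermat.Agent.LT.T7.H1U

open Fermat.Agent.LT.H556 Fermat.Agent.LT.H556.A0 Fermat.Agent.LT.T7 Fermat.Agent.LT.T7.H305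
open Fermat.Agent.LT.T7.MQ298 Fermat.Agent.LT.T7.H340 Fermat.Agent.LT.T7.FUQ514

attribute [local instance] Fermat.Agent.LT.T5.instMeasurableSpaceG

/-! ## 1. The data upstairs -/

/-- **CUT-OFF DATA UPSTAIRS over `ℚ`**: one place of `F` and a function on `GL₂(F_w)` for every
place of `ℚ`; an infinite place of `F` and a function on `GL₂(ℂ)`. -/
structure UpDatQ (F : Type) [Field F] [NumberField F] where
  /-- the place of `F` which carries the cut-off of the block over `v` -/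
  w0 : HeightOneSpectrum (𝓞 ℚ) → HeightOneSpectrum (𝓞 F)
  /-- the cut-off function of the block over `v`, a function of the component at `w0 v` -/
  bet : ∀ v : HeightOneSpectrum (𝓞 ℚ), GL (Fin 2) ((w0 v).adicCompletion F) → ℝ
  /-- the infinite place of `F` -/
  winf : InfinitePlace F
  /-- the cut-off function at the infinite place -/
  βc : GL (Fin 2) ℂ → ℝ

section Defs

variable {F : Type} [Field F] [NumberField F]

open Classical in
/-- THE PRODUCT CUT-OFF UPSTAIRS: `β' = c_T⁻¹ 1_{Out_{S'}} ∏_{v ∈ S} bet_v(y_{w0 v}) · βc(y_∞)`. -/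
def prodCutUpQ (S' : Finset (HeightOneSpectrum (𝓞 F))) (S : Finset (HeightOneSpectrum (𝓞 ℚ)))
    (cT : ℝ) (U : UpDatQ F) (y : G F) : ℝ :=
  if OutT305 S' y then
    cT⁻¹ * (∏ v ∈ S, U.bet v (finGL305 (U.w0 v) y)) * U.βc (infGL305 U.winf y)
  else 0

/-- `J` is the local twisted integral upstairs at `v`, `w` is the ONLY place over `v` and `β'`
the cut-off function (`H340.IsInertVal340` with `w` and `β'` named). -/
def IsInertAtQ (D : CompData ℚ F) (n : HeightOneSpectrum (𝓞 F) → ℕ)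
    (φ₀ : ∀ w : HeightOneSpectrum (𝓞 F), GL (Fin 2) (w.adicCompletion F) → ℂ)
    (δ : GL (Fin 2) F) (v : HeightOneSpectrum (𝓞 ℚ)) (w : HeightOneSpectrum (𝓞 F))
    (β' : GL (Fin 2) (w.adicCompletion F) → ℝ) (J : ℂ) : Prop :=
  ∃ (e : ℕ) (i : v.adicCompletion ℚ →+* w.adicCompletion F)
    (sw : w.adicCompletion F ≃+* w.adicCompletion F)
    (μ' : @Measure (GL (Fin 2) (w.adicCompletion F)) (borel _))
    (μt' : @Measure (T6.twCentSub (T6.glAut sw) (locG305 w δ)) (borel _)),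
    PlaceOver ℚ F v w ∧
    (∀ w' : HeightOneSpectrum (𝓞 F), PlaceOver ℚ F v w' → w' = w) ∧
    (∀ x : ℚ, i (algebraMap ℚ (v.adicCompletion ℚ) x)
      = algebraMap F (w.adicCompletion F) (algebraMap ℚ F x)) ∧
    (∀ y : F, sw (algebraMap F (w.adicCompletion F) y)
      = algebraMap F (w.adicCompletion F) (D.s.σ y)) ∧
    T6.IsLocalExt (v.adicCompletion ℚ) (w.adicCompletion F) D.l e i sw ∧
    IsLocHaar305 (n w) μ' ∧ IsLocTor305 sw (locG305 w δ) μt' ∧
    IsLocCut305 sw (locG305 w δ) μt' β' ∧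
    J = locTwInt340 sw μ' β' (φ₀ w) (locG305 w δ)

/-- `J` is the local twisted integral upstairs at the SPLIT place `v`, for an enumeration of the
places over `v` which starts with `w0`; the levels agree and `β'` is the cut-off function
downstairs in the coordinate of `w0` (`FUQ514.IsSplitValQ514` with the first place named). -/
def IsSplitAtQ (D : CompData ℚ F) (n : HeightOneSpectrum (𝓞 F) → ℕ)
    (m : HeightOneSpectrum (𝓞 ℚ) → ℕ)
    (φ₀ : ∀ w : HeightOneSpectrum (𝓞 F), GL (Fin 2) (w.adicCompletion F) → ℂ)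
    (δ : GL (Fin 2) F) {γ : GL (Fin 2) ℚ} (L : LocDataQ298 γ)
    (v : HeightOneSpectrum (𝓞 ℚ)) (w0 : HeightOneSpectrum (𝓞 F))
    (β' : GL (Fin 2) (w0.adicCompletion F) → ℝ) (J : ℂ) : Prop :=
  ∃ (hl : 0 < D.l) (w : ℕ → HeightOneSpectrum (𝓞 F))
    (i : ∀ j : ℕ, v.adicCompletion ℚ ≃+* (w j).adicCompletion F),
    w 0 = w0 ∧ (∀ j : ℕ, n (w j) = m v) ∧
    (∀ y : G F, β' (finGL305 w0 y)
      = L.βv v (Matrix.GeneralLinearGroup.map
          (((i 0).symm : (w 0).adicCompletion F ≃+* _) :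
            (w 0).adicCompletion F →+* v.adicCompletion ℚ) (finGL305 (w 0) y))) ∧
    (∀ j : ℕ, PlaceOver ℚ F v (w j)) ∧
    (∀ j : ℕ, T5.PlaceRel D.s (w (j + 1)) (w j)) ∧
    (∀ j : ℕ, 0 < j → j < D.l → w j ≠ w 0) ∧
    (∀ (j : ℕ) (x : ℚ), i j (algebraMap ℚ (v.adicCompletion ℚ) x)
      = algebraMap F ((w j).adicCompletion F) (algebraMap ℚ F x)) ∧
    (∀ (j : ℕ) (x : v.adicCompletion ℚ), Valued.v (i j x) = Valued.v x) ∧
    J = splitInt340 D.l hl (L.μv v) (L.βv v)
        (fun j g => φ₀ (w j)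
          (Matrix.GeneralLinearGroup.map ((i j : v.adicCompletion ℚ ≃+* _) :
            v.adicCompletion ℚ →+* (w j).adicCompletion F) g))
        (fun j => Matrix.GeneralLinearGroup.map
          (((i j).symm : (w j).adicCompletion F ≃+* _) :
            (w j).adicCompletion F →+* v.adicCompletion ℚ) (locG305 (w j) δ))

/-- `Jc j` are the local twisted integrals upstairs at the infinite place `w` for the cut-off
function `β'`, normalised against the torus measure `L.μtr` downstairs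
(`FUQ514.IsArchValQ514` with `w` and `β'` named, the same for all `j`). -/
def IsArchAtQ (D : CompData ℚ F) (Φ : InfinitePlace F → GL (Fin 2) ℂ → ℂ)
    (δ : GL (Fin 2) F) {γ : GL (Fin 2) ℚ} (L : LocDataQ298 γ)
    (μc : @Measure (GL (Fin 2) ℂ) (borel _)) (w : InfinitePlace F)
    (β' : GL (Fin 2) ℂ → ℝ) (Jc : ℤ → ℂ) : Prop :=
  Continuous β' ∧ (∀ x, 0 ≤ β' x) ∧
    (∀ x : GL (Fin 2) ℂ,
      @integral _ _ _ _ (borel _) L.μtr
        (fun t : cent305 (reGLQ298 (T5.ratG γ)) =>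
          β' (Matrix.GeneralLinearGroup.map (algebraMap ℝ ℂ) (t : GL (Fin 2) ℝ) * x)) = 1) ∧
    ∀ j : ℤ, Jc j = @integral _ _ _ _ (borel _) μc
        (fun x : GL (Fin 2) ℂ =>
          Φ w (x⁻¹ * infGL305 w (T5.ratG δ * D.R'.r ^ j)
              * T6.glAut (starRingAut : ℂ ≃+* ℂ) x) * ((β' x : ℝ) : ℂ))

/-- **THE PROPERTIES OF THE DATA UPSTAIRS** for the places of `S`, with the values `J`, `Jc`. -/
def IsUpDatQ (D : CompData ℚ F) (n : HeightOneSpectrum (𝓞 F) → ℕ)
    (m : HeightOneSpectrum (𝓞 ℚ) → ℕ)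
    (φ₀ : ∀ w : HeightOneSpectrum (𝓞 F), GL (Fin 2) (w.adicCompletion F) → ℂ)
    (Φ : InfinitePlace F → GL (Fin 2) ℂ → ℂ)
    (δ : GL (Fin 2) F) {γ : GL (Fin 2) ℚ} (L : LocDataQ298 γ)
    (μc : @Measure (GL (Fin 2) ℂ) (borel _)) (S : Finset (HeightOneSpectrum (𝓞 ℚ)))
    (U : UpDatQ F) (J : HeightOneSpectrum (𝓞 ℚ) → ℂ) (Jc : ℤ → ℂ) : Prop :=
  (∀ v ∈ S, IsInertAtQ D n φ₀ δ v (U.w0 v) (U.bet v) (J v) ∨
      IsSplitAtQ D n m φ₀ δ L v (U.w0 v) (U.bet v) (J v)) ∧
    IsArchAtQ D Φ δ L μc U.winf U.βc Jc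

/-- The levels agree at the split places of `S`, for the enumerations which start with the
place named by `w0c` (consequence of the clause `split` of the local hypotheses, in the form
of ALL enumerations and in the form of ONE enumeration). -/
def LevelsAtSplitQ (D : CompData ℚ F) (n : HeightOneSpectrum (𝓞 F) → ℕ)
    (m : HeightOneSpectrum (𝓞 ℚ) → ℕ) (S : Finset (HeightOneSpectrum (𝓞 ℚ)))
    (w0c : HeightOneSpectrum (𝓞 ℚ) → HeightOneSpectrum (𝓞 F)) : Prop :=
  ∀ v ∈ S, ∀ (w : ℕ → HeightOneSpectrum (𝓞 F))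
    (i : ∀ j : ℕ, v.adicCompletion ℚ ≃+* (w j).adicCompletion F),
    w 0 = w0c v →
    (∀ j : ℕ, PlaceOver ℚ F v (w j)) → (∀ j : ℕ, T5.PlaceRel D.s (w (j + 1)) (w j)) →
    (∀ j : ℕ, 0 < j → j < D.l → w j ≠ w 0) →
    (∀ (j : ℕ) (x : ℚ), i j (algebraMap ℚ (v.adicCompletion ℚ) x)
      = algebraMap F ((w j).adicCompletion F) (algebraMap ℚ F x)) →
    (∀ (j : ℕ) (x : v.adicCompletion ℚ), Valued.v (i j x) = Valued.v x) →
    ∀ j : ℕ, n (w j) = m v

end Defs

/-! ## 2. The leaf and the two nodes -/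

section Leaves

variable (F : Type) [Field F] [NumberField F]

/-- **LEAF U.1 = UP-DAT-EXISTS (local existence).**  See the header. -/
def UpDatExistsQC : Prop :=
  T6.T6Out → IsImagQuad F →
  ∀ D : CompData ℚ F, IsCompData D → IsCycExt ℚ F D.l → D.l = 2 →
    ∀ μc : @Measure (GL (Fin 2) ℂ) (borel _), @Measure.IsHaarMeasure _ _ _ (borel _) μc →
    ∀ (n : HeightOneSpectrum (𝓞 F) → ℕ) (m : HeightOneSpectrum (𝓞 ℚ) → ℕ)
      (S : Finset (HeightOneSpectrum (𝓞 ℚ)))
      (φ₀ : ∀ w : HeightOneSpectrum (𝓞 F), GL (Fin 2) (w.adicCompletion F) → ℂ)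
      (Φ : InfinitePlace F → GL (Fin 2) ℂ → ℂ)
      (w0c : HeightOneSpectrum (𝓞 ℚ) → HeightOneSpectrum (𝓞 F)),
      (∀ v ∈ S, PlaceOver ℚ F v (w0c v)) → LevelsAtSplitQ D n m S w0c →
    ∀ (δ : GL (Fin 2) F) (γ : GL (Fin 2) ℚ), T6.IsEll γ →
      D.s.normUpTo D.l δ = Matrix.GeneralLinearGroup.map (algebraMap ℚ F) γ →
    ∀ L : LocDataQ298 γ, IsLocDataQ298 m L →
      ∃ (U : UpDatQ F) (J : HeightOneSpectrum (𝓞 ℚ) → ℂ) (Jc : ℤ → ℂ),
        U.w0 = w0c ∧ IsUpDatQ D n m φ₀ Φ δ L μc S U J Jc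

/-- **NODE U.2 = CUT-ON-UP (Part A: the cut-off part).**  See the header. -/
def CutOnUpQC : Prop :=
  T6.T6Out → IsImagQuad F →
  ∀ D : CompData ℚ F, IsCompData D → IsCycExt ℚ F D.l → D.l = 2 →
    ∀ ι : Adl ℚ →+* Adl F, IsAdeleBase305 D.s D.l ι →
    ∀ μc : @Measure (GL (Fin 2) ℂ) (borel _), @Measure.IsHaarMeasure _ _ _ (borel _) μc →
    ∀ (T₀ : Finset (HeightOneSpectrum (𝓞 ℚ))), UnramOut305 (K' := F) T₀ →
    ∀ (n : HeightOneSpectrum (𝓞 F) → ℕ) (m : HeightOneSpectrum (𝓞 ℚ) → ℕ)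
      (S : Finset (HeightOneSpectrum (𝓞 ℚ))) (S' : Finset (HeightOneSpectrum (𝓞 F))),
      T₀ ⊆ S → IsOver305 S S' →
    ∀ (φ₀ : ∀ w : HeightOneSpectrum (𝓞 F), GL (Fin 2) (w.adicCompletion F) → ℂ)
      (Φ : InfinitePlace F → GL (Fin 2) ℂ → ℂ),
    ∀ (δ : GL (Fin 2) F) (γ : GL (Fin 2) ℚ), T6.IsEll γ →
      D.s.normUpTo D.l δ = Matrix.GeneralLinearGroup.map (algebraMap ℚ F) γ →
      GoodOut305 S γ → IntOut305 S' δ →
    ∀ (μT : @Measure (tA305 (T5.AdelicAut.id ℚ) γ) (borel _))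
      (μT' : @Measure (tA305 D.s δ) (borel _)),
      @Measure.IsHaarMeasure _ _ _ (borel _) μT →
      @Measure.IsHaarMeasure _ _ _ (borel _) μT' →
      IsTorLinked305 ι D.s δ γ μT μT' →
    ∀ (L : LocDataQ298 γ) (cT : ℝ), IsLocDataQ298 m L → 0 < cT → IsTorConstQ298 γ μT L cT →
    ∀ (U : UpDatQ F) (J : HeightOneSpectrum (𝓞 ℚ) → ℂ) (Jc : ℤ → ℂ),
      IsUpDatQ D n m φ₀ Φ δ L μc S U J Jc →
      IsCutOn305 D.s δ μT' (prodCutUpQ S' S cT U)
        {x | T5.twTerm D.R'.r D.s (pure305 S' φ₀ Φ) δ x ≠ 0}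

/-- **NODE U.3 = FACT-INT-UP (Part B: the integral part).**  See the header. -/
def FactIntUpQC : Prop :=
  T6.T6Out → IsImagQuad F →
  ∀ D : CompData ℚ F, IsCompData D → IsCycExt ℚ F D.l → D.l = 2 →
    ∀ μc : @Measure (GL (Fin 2) ℂ) (borel _), @Measure.IsHaarMeasure _ _ _ (borel _) μc →
    ∀ (T₀ : Finset (HeightOneSpectrum (𝓞 ℚ))), UnramOut305 (K' := F) T₀ →
    ∀ (n : HeightOneSpectrum (𝓞 F) → ℕ) (m : HeightOneSpectrum (𝓞 ℚ) → ℕ),
      IsLevelAt305 T₀ n m →
    ∃ cG' : ℝ, 0 < cG' ∧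
      ∀ (S : Finset (HeightOneSpectrum (𝓞 ℚ))) (S' : Finset (HeightOneSpectrum (𝓞 F))),
        T₀ ⊆ S → IsOver305 S S' →
      ∀ (φ₀ : ∀ w : HeightOneSpectrum (𝓞 F), GL (Fin 2) (w.adicCompletion F) → ℂ)
        (Φ : InfinitePlace F → GL (Fin 2) ℂ → ℂ),
        (∀ v ∈ S, ∀ w : HeightOneSpectrum (𝓞 F), PlaceOver ℚ F v w →
          T6.IsBiInv (T6.InU (n w)) (φ₀ w) ∧ T6.HasFinSupp (T6.InU (n w)) (φ₀ w)) →
        (∀ w : InfinitePlace F, Continuous (Φ w) ∧ HasCompactSupport (Φ w)) →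
      ∀ (δ : GL (Fin 2) F) (γ : GL (Fin 2) ℚ), T6.IsEll γ →
        D.s.normUpTo D.l δ = Matrix.GeneralLinearGroup.map (algebraMap ℚ F) γ →
        GoodOut305 S γ → IntOut305 S' δ →
      ∀ (L : LocDataQ298 γ) (cT : ℝ), IsLocDataQ298 m L → 0 < cT →
      ∀ (U : UpDatQ F) (J : HeightOneSpectrum (𝓞 ℚ) → ℂ) (Jc : ℤ → ℂ),
        IsUpDatQ D n m φ₀ Φ δ L μc S U J Jc →
        cutInt305 D.R'.r D.s (pure305 S' φ₀ Φ) δ D.R'.μ (prodCutUpQ S' S cT U)
          = ((cG' / cT : ℝ) : ℂ) * ∑' j : ℤ, (∏ v ∈ S, J v) * Jc j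

/-- **THE NODE IN THE FORM WITHOUT LOCAL HYPOTHESES (`W`-form).**  The caller names the first
places `w0c`; of the local hypotheses only the bi-invariance and finite support upstairs, the
continuity and compact support at infinity and the levels at the split places are used.  The
values are `IsInertAtQ` / `IsSplitAtQ` (first place `w0c v`) / `IsArchAtQ`. -/
def UpFactQWC : Prop :=
  T6.T6Out → IsImagQuad F →
  ∀ D : CompData ℚ F, IsCompData D → IsCycExt ℚ F D.l → D.l = 2 →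
    ∀ ι : Adl ℚ →+* Adl F, IsAdeleBase305 D.s D.l ι →
    ∀ μc : @Measure (GL (Fin 2) ℂ) (borel _), @Measure.IsHaarMeasure _ _ _ (borel _) μc →
    ∀ (T₀ : Finset (HeightOneSpectrum (𝓞 ℚ))), UnramOut305 (K' := F) T₀ →
    ∀ (n : HeightOneSpectrum (𝓞 F) → ℕ) (m : HeightOneSpectrum (𝓞 ℚ) → ℕ),
      IsLevelAt305 T₀ n m →
    ∃ cG' : ℝ, 0 < cG' ∧
      ∀ (S : Finset (HeightOneSpectrum (𝓞 ℚ))) (S' : Finset (HeightOneSpectrum (𝓞 F))),
        T₀ ⊆ S → IsOver305 S S' →
      ∀ (φ₀ : ∀ w : HeightOneSpectrum (𝓞 F), GL (Fin 2) (w.adicCompletion F) → ℂ)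
        (Φ : InfinitePlace F → GL (Fin 2) ℂ → ℂ),
        (∀ v ∈ S, ∀ w : HeightOneSpectrum (𝓞 F), PlaceOver ℚ F v w →
          T6.IsBiInv (T6.InU (n w)) (φ₀ w) ∧ T6.HasFinSupp (T6.InU (n w)) (φ₀ w)) →
        (∀ w : InfinitePlace F, Continuous (Φ w) ∧ HasCompactSupport (Φ w)) →
      ∀ w0c : HeightOneSpectrum (𝓞 ℚ) → HeightOneSpectrum (𝓞 F),
        (∀ v ∈ S, PlaceOver ℚ F v (w0c v)) → LevelsAtSplitQ D n m S w0c →
      ∀ (δ : GL (Fin 2) F) (γ : GL (Fin 2) ℚ), T6.IsEll γ →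
        D.s.normUpTo D.l δ = Matrix.GeneralLinearGroup.map (algebraMap ℚ F) γ →
        GoodOut305 S γ → IntOut305 S' δ →
      ∀ (μT : @Measure (tA305 (T5.AdelicAut.id ℚ) γ) (borel _))
        (μT' : @Measure (tA305 D.s δ) (borel _)),
        @Measure.IsHaarMeasure _ _ _ (borel _) μT →
        @Measure.IsHaarMeasure _ _ _ (borel _) μT' →
        IsTorLinked305 ι D.s δ γ μT μT' →
      ∀ (L : LocDataQ298 γ) (cT : ℝ), IsLocDataQ298 m L → 0 < cT → IsTorConstQ298 γ μT L cT →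
        ∃ (U : UpDatQ F) (J : HeightOneSpectrum (𝓞 ℚ) → ℂ) (Jc : ℤ → ℂ),
          U.w0 = w0c ∧ IsUpDatQ D n m φ₀ Φ δ L μc S U J Jc ∧
          IsCutOn305 D.s δ μT' (prodCutUpQ S' S cT U)
              {x | T5.twTerm D.R'.r D.s (pure305 S' φ₀ Φ) δ x ≠ 0} ∧
            cutInt305 D.R'.r D.s (pure305 S' φ₀ Φ) δ D.R'.μ (prodCutUpQ S' S cT U)
              = ((cG' / cT : ℝ) : ℂ) * ∑' j : ℤ, (∏ v ∈ S, J v) * Jc j

end Leaves

/-! ## Appendix: the equation lemmas of the definitions are realised HERE -/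

theorem eqns_realised_H1U : True := by
  have _a1 := @prodCutUpQ.eq_1
  have _a2 := @prodCutUpQ.eq_def
  have _a3 := @prodCutUpQ.eq_unfold
  have _b1 := @IsInertAtQ.eq_1
  have _b2 := @IsInertAtQ.eq_def
  have _b3 := @IsInertAtQ.eq_unfold
  have _c1 := @IsSplitAtQ.eq_1
  have _c2 := @IsSplitAtQ.eq_def
  have _c3 := @IsSplitAtQ.eq_unfold
  have _d1 := @IsArchAtQ.eq_1
  have _d2 := @IsArchAtQ.eq_def
  have _d3 := @IsArchAtQ.eq_unfold
  have _e1 := @IsUpDatQ.eq_1
  have _e2 := @IsUpDatQ.eq_def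
  have _e3 := @IsUpDatQ.eq_unfold
  have _f1 := @LevelsAtSplitQ.eq_1
  have _f2 := @LevelsAtSplitQ.eq_def
  have _f3 := @LevelsAtSplitQ.eq_unfold
  have _g1 := @UpDatExistsQC.eq_1
  have _g2 := @UpDatExistsQC.eq_def
  have _g3 := @UpDatExistsQC.eq_unfold
  have _h1 := @CutOnUpQC.eq_1
  have _h2 := @CutOnUpQC.eq_def
  have _h3 := @CutOnUpQC.eq_unfold
  have _i1 := @FactIntUpQC.eq_1
  have _i2 := @FactIntUpQC.eq_def
  have _i3 := @FactIntUpQC.eq_unfold
  have _j1 := @UpFactQWC.eq_1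
  have _j2 := @UpFactQWC.eq_def
  have _j3 := @UpFactQWC.eq_unfold
  trivial

end Fermat.Agent.LT.T7.H1U

end
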