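import Mathlib
import Fermat.Agent.LT.T7.H1U.UpFactQSpec
import Fermat.Agent.LT.T7.H558.FactDownSpec

/-!
# Row LT, tower T7, node U.3 `H1U.FactIntUpQC` (Part B of `FUQ514.UpFactQC514`; registry row
# 2787, owner helper1): THE CUT -- Spec

OFF-MAIN.  Definitions and frozen Props only (the proved top is `FactIntUpQTop.lean`).  No hole,
nothing assumed.  ADDITIVE (new names only, namespace `Fermat.Agent.LT.T7.H1U`).  Model:
helper558 `T7/H558/FactDownTopB.lean` (the untwisted case downstairs).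

    factIntUpQC_of : H305.HaarSplitC305 F → H558.OutOpenC558 F → H558.CompContC558 F →
        H558.HaarSigmaC558 F → OverSetQC F → PtFactUpQC F → RayFinUpQC F → ArchIntblUpQC F →
        FinPartUpQC F → FactIntUpQC F

## The cut

* `H305.HaarSplitC305 F`, `H558.OutOpenC558 F`, `H558.CompContC558 F`, `H558.HaarSigmaC558 F`:
  ONE-FIELD leaves of helper305 / helper558 for the field `F` (totally complex), REUSED VERBATIM.
* **`OverSetQC F`** (LEAF [S]): every finite set of places of `ℚ` has the finite set of the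
  places of `F` over it (`IsOver305`; finite fibres).
* **`PtFactUpQC F`** (LEAF [M-L], pointwise): for `y ∈ Out_{S'}` the term `j` of the integrand is
  `∏_{w ∈ S'} φ₀_w((y⁻¹ δ σ(y))_w) · Φ_w(y_∞⁻¹ (δ r'^j)_∞ conj(y_∞))`.
* **`RayFinUpQC F`** (LEAF [M]): the sum over the ray is finite, uniformly (twisted form of
  `H558.RayFinC558`).
* **`ArchIntblUpQC F`** (LEAF [L]): the integrands at infinity are integrable (twisted form of
  `H558.ArchIntblC558`).
* **`FinPartUpQC F`** (NODE [XL], the finite places): there are normalised local Haar measures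
  `μw` upstairs and a measurable function `Θ` on `∏_{w ∈ S'} GL₂(F_w)` whose pull-back is the
  finite part of the integrand (with the cut-off functions) and whose integral is `∏_{v ∈ S} J v`.

## Proofs (sketches) and FALSITY CHECKS (helper1)

`PtFactUpQC`: (1) `σ(y) ∈ Out_{S'}`: `(σ y)_w = s(y_{w''})`, `w = σ(w'')`, `s` preserves the
valuation (`H305.SigmaLocC305 F`, closed by helper558), `w''` lies over the same place of `ℚ` as
`w` (`σ` fixes `ℚ`; helper1 `T7/H1G/Fixed.lean`, `placeOver_preP_H1G`), and `S'` is the set of ALL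
places over `S`; `δ ∈ GL₂(𝒪_w)` for `w ∉ S'` (`IntOut305`); `r'` is trivial at the finite places
(`T5.IsRayGen`); so `y⁻¹ δ σ(y) r'^j ∈ Out_{S'}` and `pure305` is the product of the components.
(2) `F` has ONE infinite place `w`; `σ_𝔸` acts at `w` by `conj`: `SigmaLocC305` gives `id` or
`conj` (`w ∘ σ = w`), and `id` would give `w(σ ξ) = w(ξ)`, `σ = 1`, against
`IsCyclicOfDegree.faithful 1` (`l = 2`).  (3) `r'^j` is a scalar matrix at `w`
(`H558.ray_central558`): `y_w⁻¹ δ_w conj(y_w) r'_w^j = y_w⁻¹ (δ r'^j)_w conj(y_w)`.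

`RayFinUpQC`: `|det (x⁻¹ g conj(x))| = |det g|`, `det (δ r'^j)_w = det δ_w · t'^{2j}`, `t' > 1`;
`|det|` is bounded and bounded away from `0` on the compact support.

`ArchIntblUpQC`: `δ₀ = (δ r'^j)_w`, `δ₀ conj(δ₀) = t^j (γ_∞)_ℂ` with `γ_∞ ∈ GL₂(ℝ)` regular; the
twisted centraliser of `δ₀` is the image of the centraliser `T` of `γ_∞` (`T6.TwCentC`); the
twisted orbit is closed, `{x : x⁻¹ δ₀ conj(x) ∈ supp Φ} ⊆ T_ℂ C`, `C` compact; then as
`H558.ArchIntblC558` with the normalisation of `β'` against `L.μtr`.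

`FinPartUpQC`: `Θ(p) = ∏_{w ∈ S'} φ₀_w(p_w⁻¹ δ_w s(p_{w''})) · ∏_{v ∈ S} bet_v(p_{w0 v})`;
measurable (continuous: `H558.BiInvContC558 F`, `IsLocCut305`, the `s` are isometries); the
pull-back: `SigmaLocC305` componentwise; `μw`: the `μ'` of the datum at the places with one
place over it, the images of `L.μv v` under `i j` at the split places (`n (w j) = m v`),
`H305.LocMeasC305` + `T6.InstLocalC` elsewhere (or any normalised family and the uniqueness of
the Haar measure); the integral: `∏_{w ∈ S'} = ∏_{v ∈ S} ∏_{w ∣ v}` (`IsOver305`; the places over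
a split `v` are `w 0`, `w 1`: one orbit of `σ`), block Fubini (helper159
`T7/H159/BlockFubini.lean`: `integral_block159`, `integral_block_one159`,
`integral_block_fin159`), the `s_w` of the inert datum is the component of `σ_𝔸` (density),
`s_{w_{j+1} → w_j} ∘ i_{j+1} = i_j` (density).  CONVENTION: no integrability is needed (products).
-/

set_option autoImplicit false

open AutomorphicForm IsDedekindDomain NumberField MeasureTheory
open scoped ComplexConjugate

noncomputable section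

namespace Fermat.Agent.LT.T7.H1U

open Fermat.Agent.LT.H556 Fermat.Agent.LT.H556.A0 Fermat.Agent.LT.T7 Fermat.Agent.LT.T7.H305
open Fermat.Agent.LT.T7.MQ298 Fermat.Agent.LT.T7.H340 Fermat.Agent.LT.T7.FUQ514

attribute [local instance] Fermat.Agent.LT.T5.instMeasurableSpaceG

section Leaves

variable (F : Type) [Field F] [NumberField F]

/-- **LEAF B.0 = OVER-SET.**  The places of `F` over a finite set of places of `ℚ` form a finite
set. -/
def OverSetQC : Prop :=
  ∀ T : Finset (HeightOneSpectrum (𝓞 ℚ)),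
    ∃ T' : Finset (HeightOneSpectrum (𝓞 F)), IsOver305 T T'

/-- **LEAF B.1 = PT-FACT-UP (pointwise, twisted).**  For `y ∈ Out_{S'}`, `δ` integral outside
`S'`: the term `j` of the integrand is the product of the finite components and of the twisted
component at the infinite place. -/
def PtFactUpQC : Prop :=
  IsImagQuad F →
  ∀ D : CompData ℚ F, IsCompData D → IsCycExt ℚ F D.l → D.l = 2 →
    ∀ (S : Finset (HeightOneSpectrum (𝓞 ℚ))) (S' : Finset (HeightOneSpectrum (𝓞 F))),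
      IsOver305 S S' →
    ∀ (φ₀ : ∀ w : HeightOneSpectrum (𝓞 F), GL (Fin 2) (w.adicCompletion F) → ℂ)
      (Φ : InfinitePlace F → GL (Fin 2) ℂ → ℂ) (δ : GL (Fin 2) F), IntOut305 S' δ →
    ∀ (w : InfinitePlace F) (y : G F) (j : ℤ), OutT305 S' y →
      pure305 S' φ₀ Φ (y⁻¹ * T5.ratG δ * D.s.onG y * D.R'.r ^ j)
        = (∏ w' ∈ S', φ₀ w' (finGL305 w' (y⁻¹ * T5.ratG δ * D.s.onG y))) *
          Φ w ((infGL305 w y)⁻¹ * infGL305 w (T5.ratG δ * D.R'.r ^ j)
            * T6.glAut (starRingAut : ℂ ≃+* ℂ) (infGL305 w y))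

/-- **LEAF B.2 = RAY-FIN-UP (twisted).**  There is a finite set `Jf` of exponents such that for
`j ∉ Jf` the function `Φ` vanishes on the twisted conjugacy class of the component of
`δ r^j`. -/
def RayFinUpQC : Prop :=
  ∀ r : G F, T5.IsRayGen r →
    ∀ Φ : GL (Fin 2) ℂ → ℂ, Continuous Φ → HasCompactSupport Φ →
    ∀ (w : InfinitePlace F) (δ : GL (Fin 2) F), ∃ Jf : Finset ℤ, ∀ j : ℤ, j ∉ Jf →
      ∀ x : GL (Fin 2) ℂ,
        Φ (x⁻¹ * infGL305 w (T5.ratG δ * r ^ j) * T6.glAut (starRingAut : ℂ ≃+* ℂ) x) = 0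

/-- **LEAF B.3 = ARCH-INTBL-UP (twisted).**  The integrands at infinity are integrable. -/
def ArchIntblUpQC : Prop :=
  T6.T6Out → IsImagQuad F →
  ∀ D : CompData ℚ F, IsCompData D → IsCycExt ℚ F D.l → D.l = 2 →
    ∀ μc : @Measure (GL (Fin 2) ℂ) (borel _), @Measure.IsHaarMeasure _ _ _ (borel _) μc →
    ∀ (m : HeightOneSpectrum (𝓞 ℚ) → ℕ) (Φ : InfinitePlace F → GL (Fin 2) ℂ → ℂ),
      (∀ w : InfinitePlace F, Continuous (Φ w) ∧ HasCompactSupport (Φ w)) →
    ∀ (δ : GL (Fin 2) F) (γ : GL (Fin 2) ℚ), T6.IsEll γ →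
      D.s.normUpTo D.l δ = Matrix.GeneralLinearGroup.map (algebraMap ℚ F) γ →
    ∀ L : LocDataQ298 γ, IsLocDataQ298 m L →
    ∀ (w : InfinitePlace F) (β' : GL (Fin 2) ℂ → ℝ) (Jc : ℤ → ℂ),
      IsArchAtQ D Φ δ L μc w β' Jc →
      ∀ j : ℤ, @Integrable _ _ _ _ (borel _)
        (fun x : GL (Fin 2) ℂ =>
          Φ w (x⁻¹ * infGL305 w (T5.ratG δ * D.R'.r ^ j)
              * T6.glAut (starRingAut : ℂ ≃+* ℂ) x) * ((β' x : ℝ) : ℂ)) μc

/-- **NODE B.4 = FIN-PART-UP (the finite places).**  See the header. -/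
def FinPartUpQC : Prop :=
  T6.T6Out → IsImagQuad F →
  ∀ D : CompData ℚ F, IsCompData D → IsCycExt ℚ F D.l → D.l = 2 →
    ∀ (μc : @Measure (GL (Fin 2) ℂ) (borel _))
      (n : HeightOneSpectrum (𝓞 F) → ℕ) (m : HeightOneSpectrum (𝓞 ℚ) → ℕ)
      (S : Finset (HeightOneSpectrum (𝓞 ℚ))) (S' : Finset (HeightOneSpectrum (𝓞 F))),
      IsOver305 S S' →
    ∀ (φ₀ : ∀ w : HeightOneSpectrum (𝓞 F), GL (Fin 2) (w.adicCompletion F) → ℂ)
      (Φ : InfinitePlace F → GL (Fin 2) ℂ → ℂ),
      (∀ v ∈ S, ∀ w : HeightOneSpectrum (𝓞 F), PlaceOver ℚ F v w →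
        T6.IsBiInv (T6.InU (n w)) (φ₀ w) ∧ T6.HasFinSupp (T6.InU (n w)) (φ₀ w)) →
    ∀ (δ : GL (Fin 2) F) (γ : GL (Fin 2) ℚ), T6.IsEll γ →
      D.s.normUpTo D.l δ = Matrix.GeneralLinearGroup.map (algebraMap ℚ F) γ →
    ∀ L : LocDataQ298 γ, IsLocDataQ298 m L →
    ∀ (U : UpDatQ F) (J : HeightOneSpectrum (𝓞 ℚ) → ℂ) (Jc : ℤ → ℂ),
      IsUpDatQ D n m φ₀ Φ δ L μc S U J Jc →
      ∃ (μw : ∀ w : HeightOneSpectrum (𝓞 F),
            @Measure (GL (Fin 2) (w.adicCompletion F)) (borel _))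
        (Θ : (∀ w : S', GL (Fin 2) ((w : HeightOneSpectrum (𝓞 F)).adicCompletion F)) → ℂ),
        (∀ w : HeightOneSpectrum (𝓞 F), IsLocHaar305 (n w) (μw w)) ∧
        (letI : ∀ w : HeightOneSpectrum (𝓞 F),
            MeasurableSpace (GL (Fin 2) (w.adicCompletion F)) := fun _ => borel _;
          Measurable Θ) ∧
        (∀ y : G F, OutT305 S' y →
          (∏ w ∈ S', φ₀ w (finGL305 w (y⁻¹ * T5.ratG δ * D.s.onG y))) *
              (((∏ v ∈ S, U.bet v (finGL305 (U.w0 v) y) : ℝ)) : ℂ)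
            = Θ (fun w => finGL305 w.1 y)) ∧
        (letI : ∀ w : HeightOneSpectrum (𝓞 F),
            MeasurableSpace (GL (Fin 2) (w.adicCompletion F)) := fun _ => borel _;
          ∫ p, Θ p ∂(Measure.pi fun w : S' => μw w.1) = ∏ v ∈ S, J v)

end Leaves

/-! ## Appendix: the equation lemmas of the definitions are realised HERE -/

theorem eqns_realised_H1U_B : True := by
  have _a1 := @OverSetQC.eq_1
  have _a2 := @OverSetQC.eq_def
  have _a3 := @OverSetQC.eq_unfold
  have _b1 := @PtFactUpQC.eq_1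
  have _b2 := @PtFactUpQC.eq_def
  have _b3 := @PtFactUpQC.eq_unfold
  have _c1 := @RayFinUpQC.eq_1
  have _c2 := @RayFinUpQC.eq_def
  have _c3 := @RayFinUpQC.eq_unfold
  have _d1 := @ArchIntblUpQC.eq_1
  have _d2 := @ArchIntblUpQC.eq_def
  have _d3 := @ArchIntblUpQC.eq_unfold
  have _e1 := @FinPartUpQC.eq_1
  have _e2 := @FinPartUpQC.eq_def
  have _e3 := @FinPartUpQC.eq_unfold
  trivial

end Fermat.Agent.LT.T7.H1U

end
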