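import Mathlib
import Fermat.Agent.LT.T7.H1U.FactIntUpQSpec
import Fermat.Agent.LT.T7.H1G.Fixed

/-!
# Row LT, tower T7, node U.3 `H1U.FactIntUpQC` (Part B of `FUQ514.UpFactQC514`; registry row
# 2787, owner helper1): THE TOP

OFF-MAIN.  Complete proof, nothing assumed.  ADDITIVE (new names only, suffix `_H1U`).  Model:
helper558 `T7/H558/FactDownTopB.lean` (`factIntDownC_of558`).

    factIntUpQC_of_H1U : H305.HaarSplitC305 F → H558.OutOpenC558 F → H558.CompContC558 F →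
        H558.HaarSigmaC558 F → OverSetQC F → PtFactUpQC F → RayFinUpQC F → ArchIntblUpQC F →
        FinPartUpQC F → FactIntUpQC F
-/

set_option autoImplicit false

open AutomorphicForm IsDedekindDomain NumberField MeasureTheory
open scoped ComplexConjugate

noncomputable section

namespace Fermat.Agent.LT.T7.H1U

open Fermat.Agent.LT.H556 Fermat.Agent.LT.H556.A0 Fermat.Agent.LT.T7 Fermat.Agent.LT.T7.H305
open Fermat.Agent.LT.T7.MQ298 Fermat.Agent.LT.T7.H340 Fermat.Agent.LT.T7.FUQ514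

attribute [local instance] Fermat.Agent.LT.T5.instMeasurableSpaceG

variable {F : Type} [Field F] [NumberField F]

/-! ## Small lemmas -/

/-- The complex conjugation is continuous on `GL₂(ℂ)`. -/
theorem continuous_glConj_H1U : Continuous (T6.glAut (starRingAut : ℂ ≃+* ℂ)) :=
  Continuous.units_map _ (continuous_id.matrix_map Complex.continuous_conj)

/-- The twisted integrand at the infinite place: `x ↦ Φ(x⁻¹ g conj(x)) β(x)`. -/
def archFn_H1U (β : GL (Fin 2) ℂ → ℝ) (Φ : GL (Fin 2) ℂ → ℂ) (g : GL (Fin 2) ℂ) :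
    GL (Fin 2) ℂ → ℂ :=
  fun x => Φ (x⁻¹ * g * T6.glAut (starRingAut : ℂ ≃+* ℂ) x) * ((β x : ℝ) : ℂ)

theorem continuous_archFn_H1U (β : GL (Fin 2) ℂ → ℝ) (Φ : GL (Fin 2) ℂ → ℂ) (g : GL (Fin 2) ℂ)
    (hβ : Continuous β) (hΦ : Continuous Φ) : Continuous (archFn_H1U β Φ g) := by
  change Continuous fun x : GL (Fin 2) ℂ =>
    Φ (x⁻¹ * g * T6.glAut (starRingAut : ℂ ≃+* ℂ) x) * ((β x : ℝ) : ℂ)
  exact (hΦ.comp ((continuous_inv.mul continuous_const).mul continuous_glConj_H1U)).mul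
    (Complex.continuous_ofReal.comp hβ)

/-- The function on the product of the local groups whose pull-back is the integrand. -/
def prodFn_H1U (S' : Finset (HeightOneSpectrum (𝓞 F))) (cT : ℝ)
    (Θ : (∀ w : S', GL (Fin 2) ((w : HeightOneSpectrum (𝓞 F)).adicCompletion F)) → ℂ)
    (βc : GL (Fin 2) ℂ → ℝ) (Φ : InfinitePlace F → GL (Fin 2) ℂ → ℂ) (δ : GL (Fin 2) F)
    (r : G F) (J : Finset ℤ)
    (p : (∀ w : S', GL (Fin 2) ((w : HeightOneSpectrum (𝓞 F)).adicCompletion F)) ×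
      (InfinitePlace F → GL (Fin 2) ℂ)) : ℂ :=
  (((cT⁻¹ : ℝ) : ℂ) * Θ p.1) *
    ∑ j ∈ J, ∏ w : InfinitePlace F,
      archFn_H1U βc (Φ w) (infGL305 w (T5.ratG δ * r ^ j)) (p.2 w)

/-- Fubini for a function of the first coordinate times a finite sum of products of functions
of the coordinates of the second: no integrability is needed for the first factor. -/
theorem integral_fn_sum_H1U {α κ H : Type} [Fintype κ] [MeasurableSpace α] [MeasurableSpace H]
    (μ : Measure α) [SigmaFinite μ] (ν : Measure H) [SigmaFinite ν]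
    (c : ℂ) (Θ : α → ℂ) (J : Finset ℤ) (h : κ → ℤ → H → ℂ)
    (hint : ∀ j ∈ J, ∀ w, Integrable (h w j) ν) :
    ∫ p : α × (κ → H), (c * Θ p.1) * ∑ j ∈ J, ∏ w, h w j (p.2 w)
        ∂(μ.prod (Measure.pi fun _ : κ => ν))
      = (c * ∫ a, Θ a ∂μ) * ∑ j ∈ J, ∏ w, ∫ x, h w j x ∂ν := by
  rw [integral_prod_mul (μ := μ) (ν := Measure.pi fun _ : κ => ν)
    (fun a : α => c * Θ a) (fun b : κ → H => ∑ j ∈ J, ∏ w, h w j (b w))]
  congr 1
  · rw [integral_const_mul]
  · rw [integral_finsetSum]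
    · refine Finset.sum_congr rfl fun j _ => ?_
      exact integral_fintype_prod_eq_prod (μ := fun _ : κ => ν) (fun w => h w j)
    · intro j hj
      exact Integrable.fintype_prod (μ := fun _ : κ => ν) (f := fun w => h w j)
        (fun w => hint j hj w)

/-- `F` has ONE infinite place. -/
theorem infPlace_eq_H1U (hIQ : IsImagQuad F) (w w' : InfinitePlace F) : w = w' := by
  have h1 : Nat.card (InfinitePlace F) = 1 := hIQ.1
  haveI : Subsingleton (InfinitePlace F) := (Nat.card_eq_one_iff_unique.1 h1).1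
  exact Subsingleton.elim w w'

theorem prod_infPlace_H1U (hIQ : IsImagQuad F) (w₀ : InfinitePlace F)
    (f : InfinitePlace F → ℂ) : ∏ w : InfinitePlace F, f w = f w₀ := by
  classical
  rw [Finset.prod_eq_single w₀]
  · intro w _ hw
    exact absurd (infPlace_eq_H1U hIQ w w₀) hw
  · intro h
    exact absurd (Finset.mem_univ w₀) h

/-! ## The integrand -/

/-- **The integrand is the pull-back of `prodFn_H1U`, cut off by `Out_{S'}`.** -/
theorem integrand_eq_H1U (hIQ : IsImagQuad F) (D : CompData ℚ F)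
    (S : Finset (HeightOneSpectrum (𝓞 ℚ))) (S' : Finset (HeightOneSpectrum (𝓞 F)))
    (φ₀ : ∀ w : HeightOneSpectrum (𝓞 F), GL (Fin 2) (w.adicCompletion F) → ℂ)
    (Φ : InfinitePlace F → GL (Fin 2) ℂ → ℂ) (δ : GL (Fin 2) F) (cT : ℝ) (U : UpDatQ F)
    (Θ : (∀ w : S', GL (Fin 2) ((w : HeightOneSpectrum (𝓞 F)).adicCompletion F)) → ℂ)
    (J : Finset ℤ)
    (hterm : ∀ (y : G F) (j : ℤ), OutT305 S' y →
      pure305 S' φ₀ Φ (y⁻¹ * T5.ratG δ * D.s.onG y * D.R'.r ^ j)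
        = (∏ w' ∈ S', φ₀ w' (finGL305 w' (y⁻¹ * T5.ratG δ * D.s.onG y))) *
          Φ U.winf ((infGL305 U.winf y)⁻¹ * infGL305 U.winf (T5.ratG δ * D.R'.r ^ j)
            * T6.glAut (starRingAut : ℂ ≃+* ℂ) (infGL305 U.winf y)))
    (hΘ : ∀ y : G F, OutT305 S' y →
      (∏ w ∈ S', φ₀ w (finGL305 w (y⁻¹ * T5.ratG δ * D.s.onG y))) *
          (((∏ v ∈ S, U.bet v (finGL305 (U.w0 v) y) : ℝ)) : ℂ)
        = Θ (fun w => finGL305 w.1 y))
    (hJ : ∀ j : ℤ, j ∉ J → ∀ x : GL (Fin 2) ℂ,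
      Φ U.winf (x⁻¹ * infGL305 U.winf (T5.ratG δ * D.R'.r ^ j)
        * T6.glAut (starRingAut : ℂ ≃+* ℂ) x) = 0) (y : G F) :
    T5.twTerm D.R'.r D.s (pure305 S' φ₀ Φ) δ y * ((prodCutUpQ S' S cT U y : ℝ) : ℂ)
      = Set.indicator {y : G F | OutT305 S' y}
          (fun y => prodFn_H1U S' cT Θ U.βc Φ δ D.R'.r J (compS305 S' y)) y := by
  classical
  by_cases h : OutT305 S' y
  · rw [Set.indicator_of_mem (show y ∈ {y : G F | OutT305 S' y} from h)]
    have hts : T5.twTerm D.R'.r D.s (pure305 S' φ₀ Φ) δ y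
        = ∑ j ∈ J, (∏ w' ∈ S', φ₀ w' (finGL305 w' (y⁻¹ * T5.ratG δ * D.s.onG y))) *
            Φ U.winf ((infGL305 U.winf y)⁻¹ * infGL305 U.winf (T5.ratG δ * D.R'.r ^ j)
              * T6.glAut (starRingAut : ℂ ≃+* ℂ) (infGL305 U.winf y)) := by
      change (∑' j : ℤ,
        pure305 S' φ₀ Φ (y⁻¹ * T5.ratG δ * D.s.onG y * D.R'.r ^ j)) = _
      rw [tsum_eq_sum (s := J)]
      · exact Finset.sum_congr rfl fun j _ => hterm y j h
      · intro j hj
        rw [hterm y j h, hJ j hj _, mul_zero]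
    have hcut : prodCutUpQ S' S cT U y
        = cT⁻¹ * (∏ v ∈ S, U.bet v (finGL305 (U.w0 v) y)) * U.βc (infGL305 U.winf y) := by
      change (if OutT305 S' y then _ else _) = _
      rw [if_pos h]
    have hΘy := hΘ y h
    rw [hts, hcut]
    change _ = (((cT⁻¹ : ℝ) : ℂ) * Θ (fun w => finGL305 w.1 y)) *
      ∑ j ∈ J, ∏ w : InfinitePlace F,
        archFn_H1U U.βc (Φ w) (infGL305 w (T5.ratG δ * D.R'.r ^ j)) (infGL305 w y)
    have hprod : ∀ j : ℤ, (∏ w : InfinitePlace F,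
        archFn_H1U U.βc (Φ w) (infGL305 w (T5.ratG δ * D.R'.r ^ j)) (infGL305 w y))
        = Φ U.winf ((infGL305 U.winf y)⁻¹ * infGL305 U.winf (T5.ratG δ * D.R'.r ^ j)
              * T6.glAut (starRingAut : ℂ ≃+* ℂ) (infGL305 U.winf y))
            * ((U.βc (infGL305 U.winf y) : ℝ) : ℂ) := fun j =>
      prod_infPlace_H1U hIQ U.winf _
    simp only [hprod]
    rw [← hΘy, ← Finset.mul_sum, ← Finset.sum_mul]
    push_cast
    ring
  · rw [Set.indicator_of_notMem (show y ∉ {y : G F | OutT305 S' y} from h)]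
    have hcut : prodCutUpQ S' S cT U y = 0 := by
      change (if OutT305 S' y then _ else _) = _
      rw [if_neg h]
    rw [hcut]
    simp

/-! ## The top of part B -/

/-- **THE TOP OF PART B (upstairs over `ℚ`).** -/
theorem factIntUpQC_of_H1U (hHS : HaarSplitC305 F) (hOpen : H558.OutOpenC558 F)
    (hCont : H558.CompContC558 F) (hσ : H558.HaarSigmaC558 F) (hOS : OverSetQC F)
    (hPF : PtFactUpQC F) (hRF : RayFinUpQC F) (hAI : ArchIntblUpQC F) (hFP : FinPartUpQC F) :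
    FactIntUpQC F := by
  intro hT6 hIQ D hD hcyc hl μc hμc T₀ _hunr n m hlev
  obtain ⟨T₀', hT₀'⟩ := hOS T₀
  have hn0 : ∀ w : HeightOneSpectrum (𝓞 F), w ∉ T₀' → n w = 0 := by
    intro w hw
    have hpo : PlaceOver ℚ F (H1G.underP_H1G (K := ℚ) w) w := H1G.placeOver_underP_H1G w
    have hv : H1G.underP_H1G (K := ℚ) w ∉ T₀ := fun hv => hw ((hT₀' w).2 ⟨_, hv, hpo⟩)
    exact hlev.2 _ w hv hpo
  obtain ⟨c, hc, hsplit⟩ := hHS hIQ.2 D.R'.μ hD.frame'.frame.haar μc hμc T₀' n hn0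
  refine ⟨c, hc, ?_⟩
  intro S S' hS hov φ₀ Φ hinv hΦ δ γ hγ hN _hgood hint L cT hL _hcT U J Jc hU
  classical
  letI iv : ∀ w : HeightOneSpectrum (𝓞 F),
      MeasurableSpace (GL (Fin 2) (w.adicCompletion F)) := fun _ => borel _
  letI ic : MeasurableSpace (GL (Fin 2) ℂ) := borel _
  haveI : ∀ w : HeightOneSpectrum (𝓞 F), BorelSpace (GL (Fin 2) (w.adicCompletion F)) :=
    fun _ => ⟨rfl⟩
  haveI : BorelSpace (GL (Fin 2) ℂ) := ⟨rfl⟩
  haveI : BorelSpace (G F) := ⟨rfl⟩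
  have hr : T5.IsRayGen D.R'.r := hD.frame'.ray
  have hTS : T₀' ⊆ S' := by
    intro w hw
    obtain ⟨v, hv, hpo⟩ := (hT₀' w).1 hw
    exact (hov w).2 ⟨v, hS hv, hpo⟩
  -- the finite part
  obtain ⟨μw, Θ, hμw, hΘm, hΘ, hΘint⟩ :=
    hFP hT6 hIQ D hD hcyc hl μc n m S S' hov φ₀ Φ hinv δ γ hγ hN L hL U J Jc hU
  -- the ray
  obtain ⟨Jf, hJf⟩ := hRF D.R'.r hr (Φ U.winf) (hΦ U.winf).1 (hΦ U.winf).2 U.winf δ
  have hsp := hsplit S' hTS μw hμw
  haveI hσv : ∀ w : S', SigmaFinite (μw w.1) := fun w => hσ.1 w.1 (μw w.1) (hμw w.1).1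
  haveI hσc : SigmaFinite μc := hσ.2.1 μc hμc
  -- the integrand
  have h1 : cutInt305 D.R'.r D.s (pure305 S' φ₀ Φ) δ D.R'.μ (prodCutUpQ S' S cT U)
      = ∫ y, (Set.indicator {y : G F | OutT305 S' y}
          (fun y => prodFn_H1U S' cT Θ U.βc Φ δ D.R'.r Jf (compS305 S' y)) y) ∂(D.R'.μ) := by
    change (∫ y, (T5.twTerm D.R'.r D.s (pure305 S' φ₀ Φ) δ y
      * ((prodCutUpQ S' S cT U y : ℝ) : ℂ)) ∂(D.R'.μ)) = _
    exact integral_congr_ae (Filter.Eventually.of_forall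
      (integrand_eq_H1U hIQ D S S' φ₀ Φ δ cT U Θ Jf
        (fun y j hy => hPF hIQ D hD hcyc hl S S' hov φ₀ Φ δ hint U.winf y j hy) hΘ hJf))
  -- measurability
  have hcomp : Measurable (compS305 (K := F) S') := by
    change Measurable fun y : G F =>
      ((fun w : S' => finGL305 w.1 y), (fun w : InfinitePlace F => infGL305 w y))
    exact Measurable.prodMk (measurable_pi_lambda _ fun w => (hCont.1 w.1).measurable)
      (measurable_pi_lambda _ fun w => (hCont.2 w).measurable)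
  have hβc : Continuous U.βc := hU.2.1
  have hhw : ∀ (w : InfinitePlace F) (j : ℤ),
      Measurable (archFn_H1U U.βc (Φ w) (infGL305 w (T5.ratG δ * D.R'.r ^ j))) := fun w j =>
    (continuous_archFn_H1U _ _ _ hβc (hΦ w).1).measurable
  have hΨ : Measurable (prodFn_H1U S' cT Θ U.βc Φ δ D.R'.r Jf) := by
    change Measurable fun p : (∀ w : S', GL (Fin 2)
        ((w : HeightOneSpectrum (𝓞 F)).adicCompletion F)) × (InfinitePlace F → GL (Fin 2) ℂ) =>
      (((cT⁻¹ : ℝ) : ℂ) * Θ p.1) *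
        ∑ j ∈ Jf, ∏ w : InfinitePlace F,
          archFn_H1U U.βc (Φ w) (infGL305 w (T5.ratG δ * D.R'.r ^ j)) (p.2 w)
    refine Measurable.mul (Measurable.const_mul (hΘm.comp measurable_fst) _)
      (Finset.measurable_sum _ fun j _ => Finset.measurable_prod _ fun w _ => ?_)
    exact (hhw w j).comp ((measurable_pi_apply w).comp measurable_snd)
  -- integrability at the infinite place
  have hintbl : ∀ j ∈ Jf, ∀ w : InfinitePlace F,
      Integrable (archFn_H1U U.βc (Φ w) (infGL305 w (T5.ratG δ * D.R'.r ^ j))) μc := by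
    intro j _ w
    have hw : w = U.winf := infPlace_eq_H1U hIQ w U.winf
    subst hw
    exact hAI hT6 hIQ D hD hcyc hl μc hμc m Φ hΦ δ γ hγ hN L hL U.winf U.βc Jc hU.2 j
  -- the computation
  rw [h1, integral_indicator (hOpen S').measurableSet,
    ← integral_map hcomp.aemeasurable hΨ.aestronglyMeasurable, hsp, integral_smul_measure,
    ENNReal.toReal_ofReal hc.le]
  have h2 := integral_fn_sum_H1U (Measure.pi fun w : S' => μw w.1) μc ((cT⁻¹ : ℝ) : ℂ) Θ Jf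
    (fun (w : InfinitePlace F) (j : ℤ) =>
      archFn_H1U U.βc (Φ w) (infGL305 w (T5.ratG δ * D.R'.r ^ j))) hintbl
  change c • (∫ p : (∀ w : S', GL (Fin 2)
        ((w : HeightOneSpectrum (𝓞 F)).adicCompletion F)) × (InfinitePlace F → GL (Fin 2) ℂ),
      ((((cT⁻¹ : ℝ) : ℂ) * Θ p.1) *
        ∑ j ∈ Jf, ∏ w : InfinitePlace F,
          archFn_H1U U.βc (Φ w) (infGL305 w (T5.ratG δ * D.R'.r ^ j)) (p.2 w))
      ∂((Measure.pi fun w : S' => μw w.1).prod (Measure.pi fun _ : InfinitePlace F => μc)))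
    = _
  rw [h2, hΘint]
  -- the values at infinity
  have hJc : ∀ j : ℤ, (∏ w : InfinitePlace F,
      ∫ x, archFn_H1U U.βc (Φ w) (infGL305 w (T5.ratG δ * D.R'.r ^ j)) x ∂μc) = Jc j := by
    intro j
    rw [prod_infPlace_H1U hIQ U.winf]
    exact (hU.2.2.2.2 j).symm
  have hJc0 : ∀ j : ℤ, j ∉ Jf → Jc j = 0 := by
    intro j hj
    rw [hU.2.2.2.2 j]
    have h0 : (fun x : GL (Fin 2) ℂ =>
        Φ U.winf (x⁻¹ * infGL305 U.winf (T5.ratG δ * D.R'.r ^ j)
          * T6.glAut (starRingAut : ℂ ≃+* ℂ) x) * ((U.βc x : ℝ) : ℂ)) = fun _ => 0 := by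
      funext x
      rw [hJf j hj x, zero_mul]
    rw [h0]
    exact integral_zero _ _
  have hsum : (∑' j : ℤ, (∏ v ∈ S, J v) * Jc j) = (∏ v ∈ S, J v) * ∑ j ∈ Jf, Jc j := by
    rw [tsum_eq_sum (s := Jf), Finset.mul_sum]
    intro j hj
    rw [hJc0 j hj, mul_zero]
  rw [hsum]
  simp only [hJc]
  rw [Complex.real_smul]
  push_cast
  field_simp

end Fermat.Agent.LT.T7.H1U

end
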