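import Mathlib
import Fermat.Agent.LT.T7.H1U.UpFactQSpec
import Fermat.Agent.LT.T7.H510.IotaClosedEmb

/-!
# Row LT, tower T7, node Q2.7.13.1 `FUQ514.UpFactQC514` (registry row 2708, owner helper1):
# THE PROVED TOP of the cut

OFF-MAIN.  Complete proofs, nothing assumed.

    upFactQW_of : UpDatExistsQC F → CutOnUpQC F → FactIntUpQC F → UpFactQWC F
    upFactQC_of : UpDatExistsQC F → CutOnUpQC F → FactIntUpQC F → FUQ514.UpFactQC514 F
                                                    (VERBATIM vs FactUpQSpec 01844c0a)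
    upFactQC_ofW : UpFactQWC F → FUQ514.UpFactQC514 F
-/

set_option autoImplicit false
set_option linter.unusedVariables false

open AutomorphicForm IsDedekindDomain NumberField MeasureTheory
open scoped ComplexConjugate

noncomputable section

namespace Fermat.Agent.LT.T7.H1U

open Fermat.Agent.LT.H556 Fermat.Agent.LT.H556.A0 Fermat.Agent.LT.T7 Fermat.Agent.LT.T7.H305
open Fermat.Agent.LT.T7.MQ298 Fermat.Agent.LT.T7.H340 Fermat.Agent.LT.T7.FUQ514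

attribute [local instance] Fermat.Agent.LT.T5.instMeasurableSpaceG

variable {F : Type} [Field F] [NumberField F]

/-! ## The named values are values in the sense of helper340 / helper514 -/

theorem isInertVal_of_at {D : CompData ℚ F} {n : HeightOneSpectrum (𝓞 F) → ℕ}
    {φ₀ : ∀ w : HeightOneSpectrum (𝓞 F), GL (Fin 2) (w.adicCompletion F) → ℂ}
    {δ : GL (Fin 2) F} {v : HeightOneSpectrum (𝓞 ℚ)} {w : HeightOneSpectrum (𝓞 F)}
    {β' : GL (Fin 2) (w.adicCompletion F) → ℝ} {J : ℂ}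
    (h : IsInertAtQ D n φ₀ δ v w β' J) : IsInertVal340 D n φ₀ δ v J := by
  obtain ⟨e, i, sw, μ', μt', h⟩ := h
  exact ⟨w, e, i, sw, μ', μt', β', h⟩

theorem isSplitVal_of_at {D : CompData ℚ F} {n : HeightOneSpectrum (𝓞 F) → ℕ}
    {m : HeightOneSpectrum (𝓞 ℚ) → ℕ}
    {φ₀ : ∀ w : HeightOneSpectrum (𝓞 F), GL (Fin 2) (w.adicCompletion F) → ℂ}
    {δ : GL (Fin 2) F} {γ : GL (Fin 2) ℚ} {L : LocDataQ298 γ}
    {v : HeightOneSpectrum (𝓞 ℚ)} {w0 : HeightOneSpectrum (𝓞 F)}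
    {β' : GL (Fin 2) (w0.adicCompletion F) → ℝ} {J : ℂ}
    (h : IsSplitAtQ D n m φ₀ δ L v w0 β' J) : IsSplitValQ514 D φ₀ δ L v J := by
  obtain ⟨hl, w, i, _, _, _, h1, h2, h3, h4, h5, h6⟩ := h
  exact ⟨hl, w, i, h1, h2, h3, h4, h5, h6⟩

theorem isArchVal_of_at {D : CompData ℚ F} {Φ : InfinitePlace F → GL (Fin 2) ℂ → ℂ}
    {δ : GL (Fin 2) F} {γ : GL (Fin 2) ℚ} {L : LocDataQ298 γ}
    {μc : @Measure (GL (Fin 2) ℂ) (borel _)} {w : InfinitePlace F}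
    {β' : GL (Fin 2) ℂ → ℝ} {Jc : ℤ → ℂ}
    (h : IsArchAtQ D Φ δ L μc w β' Jc) (j : ℤ) : IsArchValQ514 D Φ δ L μc j (Jc j) := by
  obtain ⟨h1, h2, h3, h4⟩ := h
  exact ⟨w, β', h1, h2, h3, h4 j⟩

variable (F)

/-! ## The tops -/

/-- **THE TOP, `W`-form.** -/
theorem upFactQW_of (hE : UpDatExistsQC F) (hA : CutOnUpQC F) (hB : FactIntUpQC F) :
    UpFactQWC F := by
  intro hT6 hIQ D hD hcyc hl ι hι μc hμc T₀ hT₀ n m hnm
  obtain ⟨cG', hcG', hint⟩ := hB hT6 hIQ D hD hcyc hl μc hμc T₀ hT₀ n m hnm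
  refine ⟨cG', hcG', ?_⟩
  intro S S' hS hSS' φ₀ Φ hinv harch w0c hw0c hlev δ γ hγ hN hgood hio μT μT' hμT hμT' hlink
    L cT hL hcT hTc
  obtain ⟨U, J, Jc, hU0, hU⟩ :=
    hE hT6 hIQ D hD hcyc hl μc hμc n m S φ₀ Φ w0c hw0c hlev δ γ hγ hN L hL
  exact ⟨U, J, Jc, hU0, hU,
    hA hT6 hIQ D hD hcyc hl ι hι μc hμc T₀ hT₀ n m S S' hS hSS' φ₀ Φ δ γ hγ hN hgood hio
      μT μT' hμT hμT' hlink L cT hL hcT hTc U J Jc hU,
    hint S S' hS hSS' φ₀ Φ hinv harch δ γ hγ hN hgood hio L cT hL hcT U J Jc hU⟩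

/-- **The node of helper514 from the `W`-form.** -/
theorem upFactQC_ofW (hW : UpFactQWC F) : UpFactQC514 F := by
  intro hT6 hIQ D hD hcyc hl ι hι μr hμr μc hμc T₀ hT₀ n m hnm
  obtain ⟨cG', hcG', hW'⟩ := hW hT6 hIQ D hD hcyc hl ι hι μc hμc T₀ hT₀ n m hnm
  refine ⟨cG', hcG', ?_⟩
  intro S S' hS hSS' φ₀ Φ f₀ F0 F1 hLoc δ γ hγ hN hgood hio μT μT' hμT hμT' hlink L cT hL hcT hTc
  classical
  -- a place over every place
  have hex : ∀ v : HeightOneSpectrum (𝓞 ℚ), ∃ w : HeightOneSpectrum (𝓞 F), PlaceOver ℚ F v w :=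
    fun v => Fermat.Agent.LT.T7.H510.exists_placeOver_E510 v
  choose w0c hw0c using hex
  have hlev : LevelsAtSplitQ D n m S w0c := by
    intro v hv w i _ h1 h2 h3 h4 h5
    exact (hLoc.split v hv w i h1 h2 h3 h4 h5).1
  obtain ⟨U, J, Jc, _, hU, hcut, hval⟩ := hW' S S' hS hSS' φ₀ Φ hLoc.inv_up
    (fun w => ⟨(hLoc.arch_up w).cont, (hLoc.arch_up w).supp⟩) w0c (fun v _ => hw0c v) hlev
    δ γ hγ hN hgood hio μT μT' hμT hμT' hlink L cT hL hcT hTc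
  refine ⟨prodCutUpQ S' S cT U, J, Jc, hcut, hval, ?_, ?_⟩
  · intro v hv
    rcases hU.1 v hv with h | h
    · exact Or.inl (isInertVal_of_at h)
    · exact Or.inr (isSplitVal_of_at h)
  · intro j
    exact isArchVal_of_at hU.2 j

/-- **THE TOP** (the node of helper514, VERBATIM). -/
theorem upFactQC_of (hE : UpDatExistsQC F) (hA : CutOnUpQC F) (hB : FactIntUpQC F) :
    UpFactQC514 F :=
  upFactQC_ofW F (upFactQW_of F hE hA hB)

end Fermat.Agent.LT.T7.H1U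

end
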